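import Fermat.Agent.S24.Defs
import Fermat.Agent.S24.H84.OrdDiff

/-!
# KD sub-interface statements of helper984's `Alg/Sub.lean`, proved (helper84)

Exact shapes of `sub_exists_smul_D`, `sub_ordDifferential_smul`, and `sub_ordDifferential_D`
(the latter modulo the local theorem LT2 "every place over `t = 0` is induced by some `σ x`",
taken as an explicit hypothesis).
-/

set_option autoImplicit false

noncomputable section

open AlgebraicCurve KaehlerDifferential

namespace Fermat.Agent.S24.H84

variable {K F : Type*} [Field K] [Field F] [Algebra K F] [IsAlgClosed K] [CharZero K]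
variable {C : Type*} [Field C] [CharZero C] {X : Type*}

omit [IsAlgClosed K] in
/-- KD1: `Ω[F/K]` is spanned by `D j`. -/
theorem kd_exists_smul_D (j : F)
    [FiniteDimensional ↥(IntermediateField.adjoin K {j}) F] (ω : Ω[F⁄K]) :
    ∃ f : F, ω = f • D K F j := by
  have hA : Algebra.IsAlgebraic ↥(IntermediateField.adjoin K {j}) F :=
    Algebra.IsAlgebraic.of_finite _ _
  have hω : ω ∈ Submodule.span F {D K F j} := by rw [span_D_eq_top j]; trivial
  obtain ⟨f, hf⟩ := Submodule.mem_span_singleton.1 hω
  exact ⟨f, hf.symm⟩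

/-- KD2: `ordDifferential` is additive in the coefficient. -/
theorem kd_ordDifferential_smul (j : F)
    [FiniteDimensional ↥(IntermediateField.adjoin K {j}) F] (v : Place K F)
    (f : F) (hf : f ≠ 0) (ω : Ω[F⁄K]) (hω : ω ≠ 0) :
    v.ordDifferential (f • ω) = v.ord f + v.ordDifferential ω := by
  have : v.DCoordGenerates := place_dCoordGenerates j v
  have : Nontrivial Ω[F⁄K] := ⟨⟨ω, 0, hω⟩⟩
  refine v.ordDifferential_smul hf ?_
  intro h
  apply hω
  rw [← v.differentialCoeff_smul_dCoord ω, h, zero_smul]

/-- `differentialCoeff` of a nonzero differential is nonzero. -/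
theorem kd_differentialCoeff_ne_zero (j : F)
    [FiniteDimensional ↥(IntermediateField.adjoin K {j}) F] (v : Place K F)
    (ω : Ω[F⁄K]) (hω : ω ≠ 0) : v.differentialCoeff ω ≠ 0 := by
  have : v.DCoordGenerates := place_dCoordGenerates j v
  intro h
  apply hω
  rw [← v.differentialCoeff_smul_dCoord ω, h, zero_smul]

/-- LT + KD4, with LT2 as an explicit hypothesis: order of `dt` at a zero of `t`. -/
theorem kd_ordDifferential_D_of_induced (t : F)
    [FiniteDimensional ↥(IntermediateField.adjoin K {t}) F]
    (d : LocalData K F C X t) (v : Place K F) (hv : 0 < v.ord t)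
    (hind : ∃ (x : X) (g : ℕ), 0 < g ∧ ∀ f : F, f ≠ 0 → (d.σ x f).order = g * v.ord f) :
    v.ordDifferential (D K F t) = v.ord t - 1 := by
  have : v.DCoordGenerates := place_dCoordGenerates t v
  obtain ⟨x, g, hg, hord⟩ := hind
  exact place_ordDifferential_D_of_ord_ne_zero v (d.σ x) d.ι (d.σ_const x) g hg hord t hv.ne'

/-- Variant: the order of `dj` at a place over `j = a`, resp. over `j = ∞`, from local data at
`t = j - a`, resp. `t = j⁻¹`. -/
theorem kd_ordDifferential_D_sub (j : F) (a : K)
    [FiniteDimensional ↥(IntermediateField.adjoin K {j}) F]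
    (d : LocalData K F C X (j - algebraMap K F a)) (v : Place K F)
    (hv : 0 < v.ord (j - algebraMap K F a))
    (hind : ∃ (x : X) (g : ℕ), 0 < g ∧ ∀ f : F, f ≠ 0 → (d.σ x f).order = g * v.ord f) :
    v.ordDifferential (D K F j) = v.ord (j - algebraMap K F a) - 1 := by
  have : v.DCoordGenerates := place_dCoordGenerates j v
  obtain ⟨x, g, hg, hord⟩ := hind
  exact place_ordDifferential_D_of_ord_sub_ne_zero v (d.σ x) d.ι (d.σ_const x) g hg hord j a
    hv.ne'

theorem kd_ordDifferential_D_inv (j : F)
    [FiniteDimensional ↥(IntermediateField.adjoin K {j}) F]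
    (d : LocalData K F C X j⁻¹) (v : Place K F) (hv : 0 < v.ord j⁻¹)
    (hind : ∃ (x : X) (g : ℕ), 0 < g ∧ ∀ f : F, f ≠ 0 → (d.σ x f).order = g * v.ord f) :
    v.ordDifferential (D K F j) = - v.ord j⁻¹ - 1 := by
  have : v.DCoordGenerates := place_dCoordGenerates j v
  obtain ⟨x, g, hg, hord⟩ := hind
  exact place_ordDifferential_D_of_ord_inv_ne_zero v (d.σ x) d.ι (d.σ_const x) g hg hord j
    hv.ne'

end Fermat.Agent.S24.H84
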